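/-
Row 37 (S43), block OPS-U_q (architect helper33).  THE CONTRACT.

`UqOp F₀ q` : a multiplicative operator `U_q` on `FB F₀`,  `(U u)(t^q) = ∏_b u(ζ_q^b t)`, preserving the Kummer elements
(for the exponents `n` prime to `6`).  Everything the Kummer module `W1 F₀ n` needs to know about `U_q`:
* `UqOp.UW n hn : AddMonoid.End (W1 F₀ n)`, `UW_cls`;
* `UqOp.U_eq`            : the operator is unique;
* `UqOp.galF_U`, `UqOp.commute_rho_UW` : it commutes with `G_ℚ`;
* `UqOp.U_comm_T`, `UqOp.commute_UW_TW` : it commutes with `T_ℓ` (`HeckeOp1 F₀ ℓ`, `ℓ ≠ q`) as soon as it commutes with the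
  diamond operator of `T_ℓ`;
* `UqOp.commute_UW_autW` : it commutes with an automorphism `D` on `W1` as soon as `D (U u) = U (D u)`;
* `UqOp.alphaB_U`        : compatibility with an inclusion `F₀ ≤ F₀'` (`π^*`).
Existence (`Uq/Def.lean`, `Uq/Kum.lean`, `Uq/Fam.lean`): `uqOp hL hfam`, for `hL : IsLvl F₀ H N` and every group `H` for which
`(1 j; 0 q)`, `j < q`, is a Hecke family.
-/
import Fermat.Agent.S48.BB.E.HeckeOp1
import Fermat.Agent.S48.BB.T.LevelUp
import Fermat.Agent.GAL.E.HeckeComm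

set_option autoImplicit false

noncomputable section

namespace Fermat.Agent.S43.Ops.Uq

open ModularCurve AlgebraicCurve Fermat.Agent.S24 Fermat.Agent.S24.B Fermat.Agent.S48.BB
open Fermat.Agent.S48.BB.M Fermat.Agent.S48.BB.E
open Fermat.Agent.GAL.E (GQ incl red qExpand_injective')

/-- A multiplicative operator `u(t) ↦ ∏_b u(ζ^b t^(1/q))` on `FB F₀`. -/
structure UqOp (F₀ : IntermediateField ℚ (LaurentSeries ℚ)) (q : ℕ) [NeZero q] where
  /-- the operator -/
  U : FB F₀ →* FB F₀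
  /-- `(U u)(t^q) = ∏_b u(ζ^b t)` -/
  qExpand_U : ∀ u : FB F₀, qExpand Kbar q ((U u : FB F₀) : LaurentSeries Kbar) =
      ∏ b ∈ Finset.range q, twist (zetaK q ^ b) (u : LaurentSeries Kbar)
  /-- `U` preserves the elements whose divisor is divisible by `n` -/
  isKum : ∀ n : ℕ, n.Coprime 6 → ∀ u : FB F₀, IsKum (FB F₀) n u → IsKum (FB F₀) n (U u)

namespace UqOp

variable {F₀ : IntermediateField ℚ (LaurentSeries ℚ)} {q : ℕ} [NeZero q] (X : UqOp F₀ q)

/-- The operator on units. -/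
def UU : (FB F₀)ˣ →* (FB F₀)ˣ := Units.map X.U

theorem coe_UU (u : (FB F₀)ˣ) : ((X.UU u : (FB F₀)ˣ) : FB F₀) = X.U u := rfl

theorem UU_mem_kum {n : ℕ} (hn : n.Coprime 6) (u : (FB F₀)ˣ) (hu : u ∈ kum (FB F₀) n) :
    X.UU u ∈ kum (FB F₀) n :=
  X.isKum n hn u hu

/-- The operator `U_q` on the Kummer module. -/
def UW (n : ℕ) (hn : n.Coprime 6) : AddMonoid.End (W1 F₀ n) :=
  mapW X.UU fun u hu => X.UU_mem_kum hn u hu

theorem UW_cls {n : ℕ} (hn : n.Coprime 6) (u : kum (FB F₀) n) :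
    X.UW n hn (cls u) =
      cls (⟨X.UU (u : (FB F₀)ˣ), X.UU_mem_kum hn (u : (FB F₀)ˣ) u.2⟩ : kum (FB F₀) n) :=
  mapW_cls X.UU (fun u hu => X.UU_mem_kum hn u hu) u

/-- the operator is unique -/
theorem U_eq (X' : UqOp F₀ q) : X.U = X'.U := by
  refine MonoidHom.ext fun u => Subtype.ext (qExpand_injective' q ?_)
  rw [X.qExpand_U, X'.qExpand_U]

theorem U_algebraMap (c : Kbar) :
    X.U (algebraMap Kbar (FB F₀) c) = algebraMap Kbar (FB F₀) (c ^ q) := by
  refine Subtype.ext (qExpand_injective' q ?_)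
  rw [X.qExpand_U, HeckeOp1.coe_algebraMap, HeckeOp1.coe_algebraMap, qExpand_C]
  simp only [twist_C, Finset.prod_const, Finset.card_range]
  rw [← map_pow]

/-- `σ` permutes the `q`-th roots of unity, so it commutes with `U_q` -/
theorem galF_U (σ : GQ) (u : FB F₀) : galF F₀ σ (X.U u) = X.U (galF F₀ σ u) := by
  refine Subtype.ext (qExpand_injective' q ?_)
  rw [X.qExpand_U, coe_galF, coe_galF, ← GAL.E.HeckeBasic.coeffMap_qExpand, X.qExpand_U, map_prod]
  simp only [GAL.E.HeckeBasic.coeffMap_twist, map_pow]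
  have hξ : IsPrimitiveRoot (Units.map ((σ : Kbar →+* Kbar) : Kbar →* Kbar) (zetaK q)) q := by
    rw [← IsPrimitiveRoot.coe_units_iff, Units.coe_map]
    exact (IsPrimitiveRoot.coe_units_iff.2 (isPrimitiveRoot_zetaK q)).map_of_injective
      (f := (σ : Kbar →+* Kbar)) σ.injective
  exact GAL.E.HeckeBasic.prod_pow_eq (isPrimitiveRoot_zetaK q) hξ
    (fun z => twist z (coeffMap (σ : Kbar →+* Kbar) (u : LaurentSeries Kbar)))

theorem commute_rho_UW (n : ℕ) (hn : n.Coprime 6) (σ : GQ) :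
    Commute (rho F₀ n σ) (X.UW n hn) := by
  refine AddMonoidHom.ext fun x => ?_
  obtain ⟨u, rfl⟩ := cls_surjective x
  show rho F₀ n σ (X.UW n hn (cls u)) = X.UW n hn (rho F₀ n σ (cls u))
  rw [X.UW_cls, rho_cls, rho_cls, X.UW_cls]
  refine congrArg cls (Subtype.ext (Units.ext ?_))
  exact X.galF_U σ _

theorem U_ne_zero {b : FB F₀} (hb : b ≠ 0) : X.U b ≠ 0 :=
  ((isUnit_iff_ne_zero.2 hb).map X.U).ne_zero

theorem U_div (a : FB F₀) {b : FB F₀} (hb : b ≠ 0) : X.U (a / b) = X.U a / X.U b := by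
  rw [eq_div_iff (X.U_ne_zero hb), ← map_mul, div_mul_cancel₀ _ hb]

/-- commutation with an automorphism on the Kummer module -/
theorem commute_UW_autW (D : FB F₀ ≃ₐ[Kbar] FB F₀) (hD : ∀ u, D (X.U u) = X.U (D u)) (n : ℕ)
    (hn : n.Coprime 6) : Commute (X.UW n hn) (autW D n) := by
  refine AddMonoidHom.ext fun x => ?_
  obtain ⟨u, rfl⟩ := cls_surjective x
  show X.UW n hn (autW D n (cls u)) = autW D n (X.UW n hn (cls u))
  rw [autW_cls, X.UW_cls, X.UW_cls, autW_cls]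
  refine congrArg cls (Subtype.ext (Units.ext ?_))
  exact (hD _).symm

open GAL.E.HeckeComm in
/-- `U_q` commutes with `T_ℓ`, `ℓ` prime to `q`, if it commutes with the diamond operator of `T_ℓ`. -/
theorem U_comm_T {ℓ : ℕ} [NeZero ℓ] (hc : Nat.Coprime ℓ q) (Y : HeckeOp1 F₀ ℓ)
    (hD : ∀ u, Y.D (X.U u) = X.U (Y.D u)) (u : FB F₀) : X.U (Y.T u) = Y.T (X.U u) := by
  apply Subtype.ext
  apply qExpand_injective' (R := Kbar) ℓ
  apply qExpand_injective' (R := Kbar) q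
  have hz : zetaK q ^ q = 1 := (isPrimitiveRoot_zetaK q).pow_eq_one
  have hz' : zetaK ℓ ^ ℓ = 1 := (isPrimitiveRoot_zetaK ℓ).pow_eq_one
  rw [Y.qExpand_T, map_mul, map_prod, hD, qExpand_comm q (ℓ * ℓ), X.qExpand_U,
    qExpand_comm q ℓ, X.qExpand_U, map_prod, ← prod_twist_qExpand hc (zetaK q) hz,
    ← prod_twist_qExpand hc.symm (zetaK ℓ) hz', map_prod,
    ← prod_twist_qExpand (Nat.Coprime.mul_left hc hc) (zetaK q) hz]
  simp only [Y.qExpand_T, X.qExpand_U, map_mul, map_prod, twist_twist]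
  rw [Finset.prod_mul_distrib, Finset.prod_comm]
  congr 1
  refine Finset.prod_congr rfl fun b _ => Finset.prod_congr rfl fun c _ => ?_
  rw [mul_comm]

theorem commute_UW_TW {ℓ : ℕ} [NeZero ℓ] (hc : Nat.Coprime ℓ q) (Y : HeckeOp1 F₀ ℓ)
    (hD : ∀ u, Y.D (X.U u) = X.U (Y.D u)) (n : ℕ) (hn : n.Coprime 6) :
    Commute (X.UW n hn) (Y.TW n) := by
  refine AddMonoidHom.ext fun x => ?_
  obtain ⟨u, rfl⟩ := cls_surjective x
  show X.UW n hn (Y.TW n (cls u)) = Y.TW n (X.UW n hn (cls u))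
  rw [Y.TW_cls, X.UW_cls, X.UW_cls, Y.TW_cls]
  refine congrArg cls (Subtype.ext (Units.ext ?_))
  exact X.U_comm_T hc Y hD _

/-- compatibility with an inclusion of fields (`π^*`) -/
theorem alphaB_U {F₀' : IntermediateField ℚ (LaurentSeries ℚ)} (X' : UqOp F₀' q) (h : F₀ ≤ F₀')
    (u : FB F₀) : T.alphaB h (X.U u) = X'.U (T.alphaB h u) := by
  refine Subtype.ext (qExpand_injective' q ?_)
  rw [X'.qExpand_U, T.coe_alphaB, T.coe_alphaB, X.qExpand_U]

end UqOp

end Fermat.Agent.S43.Ops.Uq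

end
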