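/-
Row 37 (S43), block OPS-U_q (architect helper33).
Hecke operators attached to ANY Hecke family in `GL₂(ℝ)` for ANY subgroup `H ≤ SL(2,ℤ)` preserve `homPE H (ZMod n)`
when `n` is prime to `6` (the elliptic elements have order dividing `4` or `6`, so they are killed by every homomorphism;
the parabolic ones by orbit sums, `S48.BB.H.ParGen.heckeHom_apply_eq_zero`).
-/
import Fermat.Agent.S48.BB.H.ParGen
import Fermat.Agent.S48.BB.M.Main

set_option autoImplicit false

namespace Fermat.Agent.S43.Ops.Uq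

open Matrix.SpecialLinearGroup CongruenceSubgroup ModularGroup
open Fermat.Agent.Lib.HeckeHom Fermat.Agent.S48.BB
open Fermat.Agent.S48.BB.M (inclH inclH_apply inclH_injective)
open scoped MatrixGroups

variable {H : Subgroup SL(2, ℤ)}

/-- a homomorphism to `ℤ/n` kills the elements of order prime to `n`. -/
theorem apply_eq_zero_of_pow_eq_one_zmod {n : ℕ} (χ : Additive H →+ ZMod n) (γ : H) {m : ℕ}
    (hm : Nat.Coprime m n) (h : γ ^ m = 1) : χ (Additive.ofMul γ) = 0 := by
  have h3 : m • χ (Additive.ofMul γ) = 0 := by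
    rw [← map_nsmul, ← ofMul_pow, h, ofMul_one, map_zero]
  rw [nsmul_eq_mul] at h3
  have hu : IsUnit ((m : ℕ) : ZMod n) := (ZMod.isUnit_iff_coprime m n).2 hm
  exact (hu.mul_right_eq_zero).1 h3

theorem mem_homPE_iff {A : Type*} [AddCommGroup A] {ψ : Additive H →+ A} :
    ψ ∈ M.homPE H A ↔ ψ ∈ Top.homPE H A := by
  rw [M.mem_homPE', Top.mem_homPE]

/-- **Hecke operators preserve `homPE H (ℤ/n)`**, `n` prime to `6`. -/
theorem heckeHom_mem_homPE_zmod {n : ℕ} (hn : n.Coprime 6) {ι : Type*} [Fintype ι]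
    {α : ι → GL (Fin 2) ℝ} (h : IsHeckeFamily (inclH H) α) {ψ : Additive H →+ ZMod n}
    (hψ : ψ ∈ M.homPE H (ZMod n)) : h.heckeHom ψ ∈ M.homPE H (ZMod n) := by
  rw [mem_homPE_iff] at hψ ⊢
  rw [Top.mem_homPE]
  intro σ hσ k g hmem
  have hconj : ∀ m : ℕ, (g⁻¹ * σ ^ k * g) ^ m = g⁻¹ * σ ^ (k * m) * g := by
    intro m
    have := conj_pow (a := g⁻¹) (b := σ ^ k) (i := m)
    rw [inv_inv] at this
    rw [this, pow_mul]
  have htors : ∀ m : ℕ, Nat.Coprime m n → σ ^ m = 1 →
      h.heckeHom ψ (Additive.ofMul (⟨_, hmem⟩ : H)) = 0 := by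
    intro m hm hσm
    refine apply_eq_zero_of_pow_eq_one_zmod _ _ hm (Subtype.ext ?_)
    rw [Subgroup.coe_pow, Subgroup.coe_one, hconj, mul_comm k m, pow_mul, hσm, one_pow, mul_one,
      inv_mul_cancel]
  have h2 : Nat.Coprime 2 n := (Nat.Coprime.coprime_dvd_right (by norm_num) hn).symm
  rcases hσ with rfl | rfl | hσ
  · exact htors 4 (by
      have : Nat.Coprime (2 ^ 2) n := Nat.Coprime.pow_left 2 h2
      simpa using this) Fermat.Agent.S21.CohomBound.S_pow_four
  · exact htors 6 hn.symm Fermat.Agent.S21.CohomBound.ST_pow_six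
  · rw [Set.mem_singleton_iff] at hσ
    subst hσ
    refine Fermat.Agent.S48.BB.H.ParGen.heckeHom_apply_eq_zero h ψ _ fun i m δ _ hδ => ?_
    rw [inclH_apply, inclH_apply] at hδ
    have h1 := Fermat.Agent.S48.BB.H.trace_eq_of_conj hδ
    rw [Subgroup.coe_pow] at h1
    simp only at h1
    rw [hconj, Fermat.Agent.S48.BB.H.trace_conj_T_pow] at h1
    exact Fermat.Agent.S48.BB.H.apply_eq_zero_of_trace hψ δ h1

end Fermat.Agent.S43.Ops.Uq
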