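/-
Row 37 (S43), block OPS-U_q (architect helper33).  GENERIC PRODUCT OPERATOR.

For `hL : IsLvl F₀ H N` and ANY Hecke family `α : ι → GL(2,ℝ)` for `H` consisting of integral matrices (`N * det ∣ N'`):
  `prodOp u :=` the element of `FB F₀` with `Psi (prodOp u) = ∏ i, (Psi u) ∘ α i`.
No auxiliary field `F₀'`, no transitivity, no stabiliser (compare `S48.BB.T.HeckeData`): so it applies to `U_q`
(`α j = (1 j; 0 q)`), whose intermediate curve has no rational `q`-expansion at `∞`.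
* `Psi_prodOp`, `real_prodOp`, `isRep_prodOp` (formal layer `S43.Ops.Rel`).
The preservation of the Kummer elements is in `Uq/Kum.lean` (through the multiplier systems).
-/
import Fermat.Agent.S43.Ops.Rel.Rep
import Fermat.Agent.S48.BB.M.Hecke

set_option autoImplicit false

noncomputable section

namespace Fermat.Agent.S43.Ops.Uq

open ModularCurve AlgebraicCurve Matrix.SpecialLinearGroup
open Fermat.Agent.S24 Fermat.Agent.GAL.Mult Fermat.Agent.S48.BB Fermat.Agent.S48.BB.U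
open Fermat.Agent.S48.BB.T Fermat.Agent.Lib.HeckeHom
open scoped MatrixGroups

/-- A Hecke family of integral matrices for `H`. -/
structure FamData (F₀ : IntermediateField ℚ (LaurentSeries ℚ)) (H : Subgroup SL(2, ℤ))
    (N N' : ℕ) [NeZero N] [NeZero N'] (ι : Type) [Fintype ι] where
  hL : IsLvl F₀ H N
  k : ℕ
  hk : N * k = N'
  α : ι → GL (Fin 2) ℝ
  hdet : ∀ i, 0 < (α i).det.val
  hα : IsHeckeFamily (M.inclH H) α
  hint : ∀ i, IsIntLevel N N' ⟨α i, hdet i⟩

namespace FamData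

variable {F₀ : IntermediateField ℚ (LaurentSeries ℚ)} {H : Subgroup SL(2, ℤ)}
  {N N' : ℕ} [NeZero N] [NeZero N'] {ι : Type} [Fintype ι] (X : FamData F₀ H N N' ι)

/-- the representatives in `GL(2,ℝ)⁺` -/
def a (i : ι) : GL(2, ℝ)⁺ := ⟨X.α i, X.hdet i⟩

include X in
/-- `F₀` at the level `N'` -/
theorem hL₁ : IsLvl F₀ H N' := IsLvl.levelUp X.hL X.hk

/-- `∏ i, (Psi u) ∘ α i` -/
def prodLL (u : FB F₀) : LL N' := ∏ i, compLL (X.a i) (X.hint i) (Psi X.hL u)

theorem smul_compLL_perm (u : FB F₀) (γ : H) (i : ι) :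
    (γ : SL(2, ℤ))⁻¹ • compLL (X.a i) (X.hint i) (Psi X.hL u) =
      compLL (X.a (X.hα.perm γ i)) (X.hint (X.hα.perm γ i)) (Psi X.hL u) := by
  have hrel : X.a i * sl (γ : SL(2, ℤ)) = sl ((X.hα.coc γ i : H) : SL(2, ℤ)) * X.a (X.hα.perm γ i) :=
    Subtype.ext (X.hα.spec γ i)
  refine (smul_compLL (X.hint i) (X.hint _) (γ : SL(2, ℤ)) _ hrel (Psi X.hL u)).trans ?_
  rw [smul_Psi_of_mem X.hL _ (inv_mem (X.hα.coc γ i).2)]
  rfl

theorem smul_prodLL (u : FB F₀) (γ : SL(2, ℤ)) (hγ : γ ∈ H) : γ • X.prodLL u = X.prodLL u := by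
  have h := fun i => X.smul_compLL_perm u ⟨γ⁻¹, inv_mem hγ⟩ i
  simp only [inv_inv] at h
  rw [prodLL, Finset.smul_prod']
  simp only [h]
  exact Equiv.prod_comp (X.hα.permEquiv ⟨γ⁻¹, inv_mem hγ⟩)
    (fun i => compLL (X.a i) (X.hint i) (Psi X.hL u))

/-- the underlying function of `prodOp` -/
def prodFun (u : FB F₀) : FB F₀ :=
  (exists_Psi_eq_of_fixed X.hL₁ (X.prodLL u) (X.smul_prodLL u)).choose

theorem Psi_prodFun (u : FB F₀) : Psi X.hL₁ (X.prodFun u) = X.prodLL u :=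
  (exists_Psi_eq_of_fixed X.hL₁ (X.prodLL u) (X.smul_prodLL u)).choose_spec

/-- **The product operator** `u ↦ ∏ i, u ∘ α i`. -/
def prodOp : FB F₀ →* FB F₀ where
  toFun := X.prodFun
  map_one' := by
    apply Psi_injective X.hL₁
    rw [Psi_prodFun, prodLL]
    simp
  map_mul' u v := by
    apply Psi_injective X.hL₁
    rw [map_mul, Psi_prodFun, Psi_prodFun, Psi_prodFun, prodLL, prodLL, prodLL,
      ← Finset.prod_mul_distrib]
    simp

theorem Psi_prodOp (u : FB F₀) :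
    Psi X.hL₁ (X.prodOp u) = ∏ i, compLL (X.a i) (X.hint i) (Psi X.hL u) :=
  X.Psi_prodFun u

/-- **The product formula** in the field of meromorphic functions. -/
theorem real_prodOp (u : FB F₀) :
    real X.hL (X.prodOp u) = ∏ i, (⟨X.α i, X.hdet i⟩ : GL(2, ℝ)⁺)⁻¹ • real X.hL u := by
  rw [← real_levelUp X.hL X.hL₁ X.hk, U.real_apply, Psi_prodOp, map_prod]
  refine Finset.prod_congr rfl fun i _ => ?_
  rw [embL_compLL, U.real_apply]
  rfl

theorem isRep_prodOp : Rel.IsRep X.hL X.prodOp X.a := X.real_prodOp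

end FamData

end Fermat.Agent.S43.Ops.Uq

end
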