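/-
Row 37 (S43), block OPS-U_q (architect helper33).
The generic product operator `FamData.prodOp` preserves the Kummer elements, for the exponents `n` prime to `6`:
  `u` Kummer  ⟹  multiplier system `ψ ∈ homPE H (ℤ/n)` (`M.exists_isMult`, `IsMult.kills_*`)
              ⟹  `prodOp u` has the multiplier system `heckeHom ψ` (`M.IsMult.hecke`), which is in `homPE` (`Uq/Par.lean`)
              ⟹  `prodOp u` is Kummer (`T.isKum_of_isMult`).
Also: the multiplier map intertwines `prodOp` and `heckeHom` (`mult_prodW`).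
-/
import Fermat.Agent.S43.Ops.Uq.Prod
import Fermat.Agent.S43.Ops.Uq.Par
import Fermat.Agent.S48.BB.T.KumOfMult

set_option autoImplicit false

noncomputable section

namespace Fermat.Agent.S43.Ops.Uq

open ModularCurve AlgebraicCurve Matrix.SpecialLinearGroup
open Fermat.Agent.S24 Fermat.Agent.GAL.Mult Fermat.Agent.S48.BB Fermat.Agent.S48.BB.U
open Fermat.Agent.S48.BB.T Fermat.Agent.Lib.HeckeHom Fermat.Agent.S48.BB.M
open scoped MatrixGroups

namespace FamData

variable {F₀ : IntermediateField ℚ (LaurentSeries ℚ)} {H : Subgroup SL(2, ℤ)}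
  {N N' : ℕ} [NeZero N] [NeZero N'] {ι : Type} [Fintype ι] (X : FamData F₀ H N N' ι)

theorem isMult_prodOp {n : ℕ} [NeZero n] {u : FB F₀} {ψ : Additive H →+ ZMod n}
    (h : IsMult (Psi X.hL) H n u ψ) : IsMult (Psi X.hL) H n (X.prodOp u) (X.hα.heckeHom ψ) :=
  h.hecke X.hα X.hdet (X.real_prodOp u)

theorem prodOp_zero : X.prodOp 0 = 0 ∨ X.prodOp 0 = 1 := by
  rcases isEmpty_or_nonempty ι with hι | ⟨⟨i⟩⟩
  · right
    apply Psi_injective X.hL₁
    rw [Psi_prodOp, map_one]
    exact Finset.prod_of_isEmpty _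
  · left
    apply Psi_injective X.hL₁
    rw [Psi_prodOp, map_zero, map_zero]
    refine Finset.prod_eq_zero (Finset.mem_univ i) ?_
    rw [map_zero]

/-- **The product operator preserves the Kummer elements.** -/
theorem isKum_prodOp {n : ℕ} (hn : n.Coprime 6) (u : FB F₀) (hu : IsKum (FB F₀) n u) :
    IsKum (FB F₀) n (X.prodOp u) := by
  have : NeZero n := ⟨by rintro rfl; simp at hn⟩
  rcases eq_or_ne u 0 with rfl | hu0
  · rcases X.prodOp_zero with h | h
    · rw [h]; exact hu
    · rw [h]; exact isKum_one (FB F₀) n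
  have hinv : ∀ γ ∈ H, ∀ f : FB F₀, γ • Psi X.hL f = Psi X.hL f :=
    fun γ hγ f => smul_Psi_of_mem X.hL γ hγ f
  obtain ⟨ψ, hψ⟩ := exists_isMult hinv u hu0 hu
  have hPE : ψ ∈ homPE H (ZMod n) := ⟨hψ.kills_S hinv hu, hψ.kills_ST hinv hu, hψ.kills_T hinv hu⟩
  exact isKum_of_isMult X.hL (X.isMult_prodOp hψ) (heckeHom_mem_homPE_zmod hn X.hα hPE)

end FamData

end Fermat.Agent.S43.Ops.Uq

end
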