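/-
Row 37 (S43), block OPS-U_q (architect helper33).  EXISTENCE OF `U_q`.

For `hL : IsLvl F₀ H N` and every group `H` for which `uqFam q j = (1 j; 0 q)`, `j < q`, is a Hecke family
(`Uq/Fam.lean`: every `H` between `Γ₁(N)` and `Γ₀(N)` defined by a condition on `d mod N`, `q ∣ N`):
  `uqOp hL hfam : UqOp F₀ q`,   `real_uqOp`, `isRep_uqOp` : `real (U u) = ∏ j, real u ∘ (1 j; 0 q)`.
-/
import Fermat.Agent.S43.Ops.Uq.Contract
import Fermat.Agent.S43.Ops.Uq.Kum
import Fermat.Agent.S48.BB.T.Main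

set_option autoImplicit false

noncomputable section

namespace Fermat.Agent.S43.Ops.Uq

open ModularCurve AlgebraicCurve Matrix.SpecialLinearGroup
open Fermat.Agent.S24 Fermat.Agent.S24.B Fermat.Agent.GAL.Mult Fermat.Agent.S48.BB
open Fermat.Agent.S48.BB.U Fermat.Agent.S48.BB.T Fermat.Agent.Lib.HeckeHom
open scoped MatrixGroups

/-- the representatives `(1 j; 0 q)`, `j < q`, of `U_q` -/
def uqFam (q : ℕ) (j : Fin q) : GL (Fin 2) ℝ := ModularForm.heckeMatrix q j

theorem uqFam_det_pos (q : ℕ) (j : Fin q) : 0 < (uqFam q j).det.val :=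
  ModularForm.det_heckeMatrix_pos q j

/-- the representatives in `GL(2,ℝ)⁺` -/
def uqA (q : ℕ) (j : Fin q) : GL(2, ℝ)⁺ := ⟨uqFam q j, uqFam_det_pos q j⟩

theorem isIntLevel_uqFam (N q : ℕ) [NeZero q] (j : Fin q) :
    IsIntLevel N (N * q) ⟨uqFam q j, uqFam_det_pos q j⟩ := by
  refine ⟨!![1, ((j : ℕ) : ℤ); 0, (q : ℤ)], ?_, ?_⟩
  · rw [Matrix.det_fin_two_of]
    push_cast
    simp
  · show ((ModularForm.heckeMatrix q j : GL (Fin 2) ℝ) : Matrix (Fin 2) (Fin 2) ℝ) = _
    rw [ModularForm.val_heckeMatrix (NeZero.ne q)]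
    ext i k
    fin_cases i <;> fin_cases k <;> simp

variable {F₀ : IntermediateField ℚ (LaurentSeries ℚ)} {H : Subgroup SL(2, ℤ)}
  {N : ℕ} [NeZero N] {q : ℕ} [NeZero q]

/-- the family of `U_q` -/
def uqData (hL : IsLvl F₀ H N) (hfam : IsHeckeFamily (M.inclH H) (uqFam q)) :
    FamData F₀ H N (N * q) (Fin q) where
  hL := hL
  k := q
  hk := rfl
  α := uqFam q
  hdet := uqFam_det_pos q
  hα := hfam
  hint := isIntLevel_uqFam N q

theorem qExpand_uq (hL : IsLvl F₀ H N) (hfam : IsHeckeFamily (M.inclH H) (uqFam q)) (u : FB F₀) :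
    qExpand Kbar q (((uqData hL hfam).prodOp u : FB F₀) : LaurentSeries Kbar) =
      ∏ b ∈ Finset.range q, twist (zetaK q ^ b) (u : LaurentSeries Kbar) := by
  set X := uqData hL hfam with hX
  apply ModularCurve.qExpand_injective (R := Kbar) N
  have h1 := congrArg (texpLL (N * q)) (X.Psi_prodOp u)
  rw [U.texpLL_Psi, map_prod] at h1
  have hfin : ∀ j : Fin q, texpLL (N * q) (compLL (X.a j) (X.hint j) (U.Psi X.hL u)) =
      qExpand Kbar N (twist (zetaK q ^ (j : ℕ)) (u : LaurentSeries Kbar)) := by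
    intro j
    exact texpLL_compLL_upper hL rfl _ (j : ℕ) rfl u
  rw [Finset.prod_congr rfl (fun j _ => hfin j),
    Fin.prod_univ_eq_prod_range (fun b => qExpand Kbar N
      (twist (zetaK q ^ b) (u : LaurentSeries Kbar))) q, ← map_prod] at h1
  rw [← h1, Main_qExpand_qExpand]

/-- **The operator `U_q`.** -/
def uqOp (hL : IsLvl F₀ H N) (hfam : IsHeckeFamily (M.inclH H) (uqFam q)) : UqOp F₀ q where
  U := (uqData hL hfam).prodOp
  qExpand_U := qExpand_uq hL hfam
  isKum := fun _ hn u hu => (uqData hL hfam).isKum_prodOp hn u hu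

/-- **The product formula** in the field of meromorphic functions. -/
theorem real_uqOp (hL : IsLvl F₀ H N) (hfam : IsHeckeFamily (M.inclH H) (uqFam q)) (u : FB F₀) :
    real hL ((uqOp hL hfam).U u) = ∏ j, (uqA q j)⁻¹ • real hL u :=
  (uqData hL hfam).real_prodOp u

theorem isRep_uqOp (hL : IsLvl F₀ H N) (hfam : IsHeckeFamily (M.inclH H) (uqFam q)) :
    Rel.IsRep hL (uqOp hL hfam).U (uqA q) :=
  real_uqOp hL hfam

/-- every `UqOp` is represented by the family `(1 j; 0 q)` -/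
theorem UqOp.isRep (X : UqOp F₀ q) (hL : IsLvl F₀ H N)
    (hfam : IsHeckeFamily (M.inclH H) (uqFam q)) : Rel.IsRep hL X.U (uqA q) := by
  rw [X.U_eq (uqOp hL hfam)]
  exact isRep_uqOp hL hfam

/-- the multiplier system of `U_q u` -/
theorem isMult_uqOp (hL : IsLvl F₀ H N) (hfam : IsHeckeFamily (M.inclH H) (uqFam q)) {n : ℕ}
    [NeZero n] {u : FB F₀} {ψ : Additive H →+ ZMod n} (h : M.IsMult (Psi hL) H n u ψ) :
    M.IsMult (Psi hL) H n ((uqOp hL hfam).U u) (hfam.heckeHom ψ) :=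
  (uqData hL hfam).isMult_prodOp h

end Fermat.Agent.S43.Ops.Uq

end
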