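/-
Row 37 (S43), block OPS-U_q (architect helper33).  COSETS OF `U_q`.

`IsDGroup H N` : `H ≤ Γ₀(N)` and the membership of `γ ∈ Γ₀(N)` in `H` only depends on `d mod N`
(`Γ₀(N)`, `±Γ₁(q) ∩ Γ₀(q M)`, every `Γ_H`).
* `uq_stable`           : `(1 i; 0 q) γ = δ (1 j; 0 q)` with `δ ∈ Γ₀(N)`, `d(δ) ≡ d(γ) mod N`, for `γ ∈ Γ₀(N)`, `q ∣ N`;
* `isHeckeFamily_uqFam` : `(1 j; 0 q)`, `j < q`, is a Hecke family for `H`, if `q ∣ N`;
* `isDGroup_Gamma0`, `isDGroup_H1`.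
-/
import Fermat.Agent.S43.Ops.Uq.Def
import Fermat.Agent.S48.BB.H.Defs

set_option autoImplicit false

noncomputable section

namespace Fermat.Agent.S43.Ops.Uq

open ModularCurve CongruenceSubgroup Matrix.SpecialLinearGroup
open Fermat.Agent.S24 Fermat.Agent.S48.A Fermat.Agent.S48.BB Fermat.Agent.S48.BB.H
open Fermat.Agent.Lib.HeckeHom
open scoped MatrixGroups

/-- `H ≤ Γ₀(N)` is defined by a condition on `d mod N`. -/
structure IsDGroup (H : Subgroup SL(2, ℤ)) (N : ℕ) : Prop where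
  le : H ≤ Gamma0 N
  of_dvd : ∀ γ ∈ H, ∀ δ ∈ Gamma0 N, (N : ℤ) ∣ δ 1 1 - γ 1 1 → δ ∈ H

theorem mem_Gamma0_iff_dvd {N : ℕ} {γ : SL(2, ℤ)} : γ ∈ Gamma0 N ↔ (N : ℤ) ∣ γ 1 0 := by
  rw [Gamma0_mem, ZMod.intCast_zmod_eq_zero_iff_dvd]

theorem isDGroup_Gamma0 (N : ℕ) : IsDGroup (Gamma0 N) N := ⟨le_rfl, fun _ _ _ h _ => h⟩

theorem Gamma0_mul_le (q M : ℕ) : Gamma0 (q * M) ≤ Gamma0 q := by
  intro γ hγ
  rw [mem_Gamma0_iff_dvd] at hγ ⊢
  refine dvd_trans ?_ hγ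
  push_cast
  exact Dvd.intro _ rfl

theorem isDGroup_H1 (q M : ℕ) : IsDGroup (H1 q M) (q * M) where
  le := inf_le_right
  of_dvd := by
    intro γ hγ δ hδ h
    have hγ1 : γ ∈ H1 q 1 := ⟨hγ.1, by rw [mul_one]; exact Gamma0_mul_le q M hγ.2⟩
    have hdd : dd q δ = dd q γ := by
      have h1 : (q : ℤ) ∣ δ 1 1 - γ 1 1 := by
        refine dvd_trans ?_ h
        push_cast
        exact Dvd.intro _ rfl
      have h2 := (ZMod.intCast_zmod_eq_zero_iff_dvd _ _).2 h1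
      push_cast at h2
      exact sub_eq_zero.1 h2
    exact ⟨(mem_H1_of_dd_eq hγ1 (Gamma0_mul_le q M hδ) hdd).1, hδ⟩

theorem val_mapGL' (γ : SL(2, ℤ)) :
    ((mapGL ℝ γ : GL (Fin 2) ℝ) : Matrix (Fin 2) (Fin 2) ℝ) = γ.1.map (Int.cast : ℤ → ℝ) := by
  ext i j; simp

/-- An identity of integral matrices gives the identity in `GL₂(ℝ)`. -/
theorem heckeMatrix_mul_of_int (q : ℕ) [NeZero q] (g δ : SL(2, ℤ)) (i j : ℕ)
    (h : (!![1, (i : ℤ); 0, (q : ℤ)] : Matrix (Fin 2) (Fin 2) ℤ) * g.1 =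
      δ.1 * !![1, (j : ℤ); 0, (q : ℤ)]) :
    ModularForm.heckeMatrix q i * mapGL ℝ g = mapGL ℝ δ * ModularForm.heckeMatrix q j := by
  have hq : q ≠ 0 := NeZero.ne q
  apply Units.ext
  rw [Units.val_mul, Units.val_mul, ModularForm.val_heckeMatrix hq,
    ModularForm.val_heckeMatrix hq, val_mapGL', val_mapGL']
  have h' := congrArg (fun A : Matrix (Fin 2) (Fin 2) ℤ => A.map (Int.cast : ℤ → ℝ)) h
  simp only [Matrix.map_mul_intCast] at h'
  convert h' using 2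
  · ext i k; fin_cases i <;> fin_cases k <;> simp
  · ext i k; fin_cases i <;> fin_cases k <;> simp

/-- **The cosets of `U_q` are stable under `Γ₀(N)`, `q ∣ N`**, with control of `d`. -/
theorem uq_stable {N q : ℕ} [NeZero q] (hqN : q ∣ N) (γ : SL(2, ℤ)) (hγ : γ ∈ Gamma0 N)
    (i : Fin q) : ∃ (j : Fin q) (δ : SL(2, ℤ)), δ ∈ Gamma0 N ∧ (N : ℤ) ∣ δ 1 1 - γ 1 1 ∧
      uqFam q i * mapGL ℝ γ = mapGL ℝ δ * uqFam q j := by
  have hq0 : (0 : ℤ) < q := by exact_mod_cast Nat.pos_of_ne_zero (NeZero.ne q)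
  have hNc : (N : ℤ) ∣ γ 1 0 := mem_Gamma0_iff_dvd.1 hγ
  obtain ⟨c', hc'⟩ : (q : ℤ) ∣ γ 1 0 := dvd_trans (by exact_mod_cast hqN) hNc
  have hdet : γ 0 0 * γ 1 1 - γ 0 1 * γ 1 0 = 1 := by
    have := γ.2
    rwa [Matrix.det_fin_two] at this
  set a := γ 0 0 with ha
  set b := γ 0 1 with hb
  set c := γ 1 0 with hc
  set d := γ 1 1 with hd
  set i' : ℤ := ((i : ℕ) : ℤ) with hi'
  set j0 : ℤ := ((b + i' * d) * d) % q with hj0
  set k : ℤ := ((b + i' * d) * d) / q with hk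
  have hjk : j0 + q * k = (b + i' * d) * d := Int.emod_add_mul_ediv _ _
  have hj0nn : 0 ≤ j0 := Int.emod_nonneg _ hq0.ne'
  have hj0lt : j0 < q := Int.emod_lt_of_pos _ hq0
  have hjn : (j0.toNat : ℤ) = j0 := Int.toNat_of_nonneg hj0nn
  have hjlt : j0.toNat < q := by
    have : (j0.toNat : ℤ) < q := by rw [hjn]; exact hj0lt
    exact_mod_cast this
  set e : ℤ := k * (a + i' * c) - c' * (b + i' * d) ^ 2 with he
  have hqe : b + i' * d - (a + i' * c) * j0 = q * e := by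
    have h1 : j0 = (b + i' * d) * d - q * k := by linarith
    rw [h1, he]
    linear_combination (-(b + i' * d)) * hdet + (-(b + i' * d) * (b + i' * d)) * hc'
  let δ : SL(2, ℤ) := ⟨!![a + i' * c, e; q * c, d - c * j0], by
    rw [Matrix.det_fin_two_of]
    linear_combination hdet + c * hqe⟩
  refine ⟨⟨j0.toNat, hjlt⟩, δ, ?_, ?_, ?_⟩
  · rw [mem_Gamma0_iff_dvd]
    show (N : ℤ) ∣ q * c
    exact Dvd.dvd.mul_left hNc _
  · show (N : ℤ) ∣ d - c * j0 - d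
    have : d - c * j0 - d = c * (-j0) := by ring
    rw [this]
    exact Dvd.dvd.mul_right hNc _
  · refine heckeMatrix_mul_of_int q γ δ i j0.toNat ?_
    rw [hjn]
    have hγ' : γ.1 = !![a, b; c, d] := by
      ext x y
      fin_cases x <;> fin_cases y <;> rfl
    rw [hγ']
    show (!![1, i'; 0, (q : ℤ)] : Matrix (Fin 2) (Fin 2) ℤ) * !![a, b; c, d] =
      !![a + i' * c, e; q * c, d - c * j0] * !![1, j0; 0, (q : ℤ)]
    ext x y
    fin_cases x <;> fin_cases y <;> simp [Matrix.mul_apply, Fin.sum_univ_two]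
    · linear_combination hqe
    · ring

/-- the cosets `SL(2,ℤ) (1 j; 0 q)` are distinct -/
theorem uq_disj {q : ℕ} [NeZero q] (i j : Fin q) (δ : SL(2, ℤ))
    (h : uqFam q i = mapGL ℝ δ * uqFam q j) : i = j := by
  have hq : q ≠ 0 := NeZero.ne q
  have h' := congrArg (fun X : GL (Fin 2) ℝ => (X : Matrix (Fin 2) (Fin 2) ℝ)) h
  simp only [uqFam, Units.val_mul, ModularForm.val_heckeMatrix hq, val_mapGL'] at h'
  have h00 := congrFun (congrFun h' 0) 0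
  have h01 := congrFun (congrFun h' 0) 1
  simp [Matrix.mul_apply, Fin.sum_univ_two] at h00 h01
  rw [← h00] at h01
  have h2 : ((i : ℕ) : ℤ) = (j : ℕ) + δ 0 1 * q := by
    have : (((i : ℕ) : ℤ) : ℝ) = (((j : ℕ) + δ 0 1 * q : ℤ) : ℝ) := by
      push_cast
      linarith
    exact_mod_cast this
  have hi := i.2
  have hj := j.2
  have h3 : δ 0 1 = 0 := by
    by_contra hne
    rcases lt_or_gt_of_ne hne with hlt | hgt
    · have : δ 0 1 * q ≤ -1 * q := by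
        apply mul_le_mul_of_nonneg_right (by omega) (by positivity)
      omega
    · have : 1 * (q : ℤ) ≤ δ 0 1 * q := by
        apply mul_le_mul_of_nonneg_right (by omega) (by positivity)
      omega
  rw [h3] at h2
  apply Fin.ext
  omega

/-- **`(1 j; 0 q)`, `j < q`, is a Hecke family for `H`.** -/
theorem isHeckeFamily_uqFam {H : Subgroup SL(2, ℤ)} {N q : ℕ} [NeZero q] (hH : IsDGroup H N)
    (hqN : q ∣ N) : IsHeckeFamily (M.inclH H) (uqFam q) where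
  inj := M.inclH_injective H
  disj := fun i j g h => uq_disj i j g h
  stable := by
    intro i γ
    obtain ⟨j, δ, hδ0, hδd, h⟩ := uq_stable hqN γ (hH.le γ.2) i
    exact ⟨j, ⟨δ, hH.of_dvd γ γ.2 δ hδ0 hδd⟩, h⟩

end Fermat.Agent.S43.Ops.Uq

end
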