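/-
Row 37 (S43), block OPS-U (helper47 + helper33).  BRIDGE between the official contract `Ops.U.UOp` (helper47) and `Ops.Uq`.
Everything proved for `UqOp` holds for `UOp`:
* `toUqOp`, `UW_toUqOp`;
* `UOp.isRep`          : the product formula `real (U u) = ∏ j, real u ∘ (1 j; 0 q)` for ANY `UOp` (uniqueness);
* `UOp.U_comm_T`, `UOp.commute_UW_TW`, `UOp.commute_UW_autW`;
* `uOp_of_isKum`       : an `UOp` from `uqOp` and the Kummer property for all `n`.
-/
import Fermat.Agent.S43.Ops.U.Defs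
import Fermat.Agent.S43.Ops.Uq.Fam

set_option autoImplicit false

noncomputable section

namespace Fermat.Agent.S43.Ops.Uq

open ModularCurve AlgebraicCurve Fermat.Agent.S24 Fermat.Agent.S24.B Fermat.Agent.S48.BB
open Fermat.Agent.S48.BB.M Fermat.Agent.S48.BB.E Fermat.Agent.S43.Ops.U
open Fermat.Agent.Lib.HeckeHom
open scoped MatrixGroups

variable {F₀ : IntermediateField ℚ (LaurentSeries ℚ)} {q : ℕ} [NeZero q]

/-- forget the Kummer property for the exponents not prime to `6` -/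
def toUqOp (X : UOp F₀ q) : UqOp F₀ q where
  U := X.U
  qExpand_U := X.qExpand_U
  isKum := fun n _ u hu => X.isKum n u hu

theorem toUqOp_U (X : UOp F₀ q) : (toUqOp X).U = X.U := rfl

theorem UW_toUqOp (X : UOp F₀ q) (n : ℕ) (hn : n.Coprime 6) : (toUqOp X).UW n hn = X.UW n := rfl

/-- the two operators agree -/
theorem UOp_U_eq (X : UOp F₀ q) (Y : UqOp F₀ q) : X.U = Y.U := (toUqOp X).U_eq Y

/-- **the product formula for any `UOp`** -/
theorem UOp_isRep (X : UOp F₀ q) {H : Subgroup SL(2, ℤ)} {N : ℕ} [NeZero N] (hL : IsLvl F₀ H N)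
    (hfam : IsHeckeFamily (M.inclH H) (uqFam q)) : Rel.IsRep hL X.U (uqA q) :=
  (toUqOp X).isRep hL hfam

theorem UOp_U_comm_T (X : UOp F₀ q) {ℓ : ℕ} [NeZero ℓ] (hc : Nat.Coprime ℓ q) (Y : HeckeOp1 F₀ ℓ)
    (hD : ∀ u, Y.D (X.U u) = X.U (Y.D u)) (u : FB F₀) : X.U (Y.T u) = Y.T (X.U u) :=
  (toUqOp X).U_comm_T hc Y hD u

theorem UOp_commute_UW_TW (X : UOp F₀ q) {ℓ : ℕ} [NeZero ℓ] (hc : Nat.Coprime ℓ q)
    (Y : HeckeOp1 F₀ ℓ) (hD : ∀ u, Y.D (X.U u) = X.U (Y.D u)) (n : ℕ) :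
    Commute (X.UW n) (Y.TW n) := by
  refine AddMonoidHom.ext fun x => ?_
  obtain ⟨u, rfl⟩ := cls_surjective x
  show X.UW n (Y.TW n (cls u)) = Y.TW n (X.UW n (cls u))
  rw [Y.TW_cls, X.UW_cls, X.UW_cls, Y.TW_cls]
  refine congrArg cls (Subtype.ext (Units.ext ?_))
  exact UOp_U_comm_T X hc Y hD _

theorem UOp_commute_UW_autW (X : UOp F₀ q) (D : FB F₀ ≃ₐ[Kbar] FB F₀)
    (hD : ∀ u, D (X.U u) = X.U (D u)) (n : ℕ) : Commute (X.UW n) (autW D n) := by
  refine AddMonoidHom.ext fun x => ?_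
  obtain ⟨u, rfl⟩ := cls_surjective x
  show X.UW n (autW D n (cls u)) = autW D n (X.UW n (cls u))
  rw [autW_cls, X.UW_cls, X.UW_cls, autW_cls]
  refine congrArg cls (Subtype.ext (Units.ext ?_))
  exact (hD _).symm

/-- an `UOp` from an `UqOp` and the Kummer property for all exponents -/
def uOp_of_isKum (Y : UqOp F₀ q)
    (h : ∀ (n : ℕ) (u : FB F₀), IsKum (FB F₀) n u → IsKum (FB F₀) n (Y.U u)) : UOp F₀ q where
  U := Y.U
  qExpand_U := Y.qExpand_U
  isKum := h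

end Fermat.Agent.S43.Ops.Uq

end
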