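/-
Row 37 (S43), block OPS-U_q (architect helper33).
GENERAL ROTATION LEMMA: an element of `SL(2,ℤ)` fixing `τ₀ ∈ ℍ` is a rotation in the disc coordinate at `τ₀`;
an element of `SL(2,ℤ)` with `|trace| < 2` has a fixed point in `ℍ`.
-/
import Fermat.Agent.S24.B.Fixed

set_option autoImplicit false

namespace Fermat.Agent.S43.Ops.Uq

open UpperHalfPlane Filter Topology Fermat.Agent.S24.B Fermat.Agent.S24.B.Fixed
open scoped MatrixGroups Real Manifold

/-- an element fixing `τ₀` is a rotation in the disc coordinate at `τ₀` -/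
theorem exists_rotation (g : SL(2, ℤ)) (τ₀ : ℍ) (hfix : g • τ₀ = τ₀) :
    ∃ μ : ℂˣ, ∀ᶠ w in 𝓝 (0 : ℂ),
      g • ofComplex (discInv τ₀ w) = ofComplex (discInv τ₀ ((μ : ℂ) * w)) := by
  set a : ℂ := ((g 0 0 : ℤ) : ℂ) with ha
  set b : ℂ := ((g 0 1 : ℤ) : ℂ) with hb
  set c : ℂ := ((g 1 0 : ℤ) : ℂ) with hc
  set d : ℂ := ((g 1 1 : ℤ) : ℂ) with hd
  set z : ℂ := (τ₀ : ℂ) with hz
  set z' : ℂ := (starRingEnd ℂ) (τ₀ : ℂ) with hz'
  have hcoe : ∀ τ : ℍ, ((g • τ : ℍ) : ℂ) = (a * τ + b) / (c * τ + d) := by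
    intro τ
    rw [coe_specialLinearGroup_apply]
    simp [ha, hb, hc, hd]
  have hden : ∀ τ : ℍ, c * (τ : ℂ) + d ≠ 0 := by
    intro τ
    have := denom_ne_zero (Matrix.SpecialLinearGroup.mapGL ℝ g) τ
    simpa [denom, ha, hb, hc, hd] using this
  have h0 : c * z + d ≠ 0 := hden τ₀
  have h0' : c * z' + d ≠ 0 := by
    have : (starRingEnd ℂ) (c * z + d) = c * z' + d := by
      simp [hc, hd, hz, hz']
    rw [← this]
    exact (map_ne_zero _).2 h0
  have hf : a * z + b = z * (c * z + d) := by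
    have h1 := hcoe τ₀
    rw [hfix] at h1
    rw [eq_div_iff h0] at h1
    exact h1.symm
  have hf' : a * z' + b = z' * (c * z' + d) := by
    have := congrArg (starRingEnd ℂ) hf
    simpa [ha, hb, hc, hd, hz, hz'] using this
  refine ⟨Units.mk0 ((c * z' + d) / (c * z + d)) (div_ne_zero h0' h0), ?_⟩
  set μ : ℂ := (c * z' + d) / (c * z + d) with hμ
  show ∀ᶠ w in 𝓝 (0 : ℂ), g • ofComplex (discInv τ₀ w) = ofComplex (discInv τ₀ (μ * w))
  filter_upwards [eventually_im_discInv_pos τ₀, eventually_im_discInv_mul_pos τ₀ μ,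
    eventually_one_sub_mul_ne_zero 1, eventually_one_sub_mul_ne_zero μ] with w h1 h2 h3 h4
  rw [ofComplex_apply_of_im_pos h1, ofComplex_apply_of_im_pos h2]
  apply UpperHalfPlane.ext
  rw [hcoe]
  show (a * discInv τ₀ w + b) / (c * discInv τ₀ w + d) = discInv τ₀ (μ * w)
  have h5 : c * discInv τ₀ w + d ≠ 0 := hden ⟨discInv τ₀ w, h1⟩
  have h3' : 1 - w ≠ 0 := by simpa using h3
  have hμ' : μ * (c * z + d) = c * z' + d := by rw [hμ, div_mul_cancel₀ _ h0]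
  have e1 : discInv τ₀ w = (z - z' * w) / (1 - w) := rfl
  have e2 : discInv τ₀ (μ * w) = (z - z' * (μ * w)) / (1 - μ * w) := rfl
  rw [e1] at h5 ⊢
  rw [e2]
  have h6 : c * (z - z' * w) + d * (1 - w) ≠ 0 := by
    intro h
    apply h5
    rw [mul_div_assoc', div_add' _ _ _ h3', h, zero_div]
  have e3 : (a * ((z - z' * w) / (1 - w)) + b) / (c * ((z - z' * w) / (1 - w)) + d) =
      (a * (z - z' * w) + b * (1 - w)) / (c * (z - z' * w) + d * (1 - w)) := by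
    rw [mul_div_assoc', mul_div_assoc', div_add' _ _ _ h3', div_add' _ _ _ h3',
      div_div_div_cancel_right₀ h3']
  rw [e3, div_eq_div_iff h6 h4]
  linear_combination (1 - μ * w) * hf - w * (1 - μ * w) * hf' + (z' - z) * w * hμ'

/-- an element of `SL(2,ℤ)` with `|trace| < 2` has a fixed point in `ℍ` -/
theorem exists_fixed_point (g : SL(2, ℤ))
    (ht : ((g : Matrix (Fin 2) (Fin 2) ℤ).trace) ^ 2 < 4) : ∃ τ₀ : ℍ, g • τ₀ = τ₀ := by
  rw [Matrix.trace_fin_two] at ht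
  have hdetZ : g 0 0 * g 1 1 - g 0 1 * g 1 0 = 1 := by
    have := g.2
    rwa [Matrix.det_fin_two] at this
  have hcZ : g 1 0 ≠ 0 := by
    intro h0
    rw [h0, mul_zero, sub_zero] at hdetZ
    rcases Int.eq_one_or_neg_one_of_mul_eq_one' hdetZ with ⟨h1, h2⟩ | ⟨h1, h2⟩ <;>
      rw [h1, h2] at ht <;> norm_num at ht
  set a : ℝ := ((g 0 0 : ℤ) : ℝ) with ha
  set b : ℝ := ((g 0 1 : ℤ) : ℝ) with hb
  set c : ℝ := ((g 1 0 : ℤ) : ℝ) with hc
  set d : ℝ := ((g 1 1 : ℤ) : ℝ) with hd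
  have hdet : a * d - b * c = 1 := by
    rw [ha, hb, hc, hd]; exact_mod_cast hdetZ
  have hc0 : c ≠ 0 := by
    rw [hc]; exact_mod_cast hcZ
  have ht' : (a + d) ^ 2 < 4 := by
    rw [ha, hd]; exact_mod_cast ht
  set s : ℝ := Real.sqrt (4 - (a + d) ^ 2) with hs
  have hs0 : 0 < s := Real.sqrt_pos.2 (by linarith)
  have hs2 : s ^ 2 = 4 - (a + d) ^ 2 := Real.sq_sqrt (by linarith)
  set x : ℝ := (a - d) / (2 * c) with hx
  set y : ℝ := s / (2 * |c|) with hy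
  have hy0 : 0 < y := div_pos hs0 (by positivity)
  have hx' : 2 * c * x = a - d := by
    rw [hx]; field_simp
  have hy' : 4 * c ^ 2 * y ^ 2 = 4 - (a + d) ^ 2 := by
    have habs : |c| ≠ 0 := abs_ne_zero.2 hc0
    have h1 : 2 * |c| * y = s := by
      rw [hy]; field_simp
    have h2 : (2 * |c| * y) ^ 2 = 4 * c ^ 2 * y ^ 2 := by
      rw [mul_pow, mul_pow, sq_abs]; ring
    rw [← h2, h1, hs2]
  have hre : c * x ^ 2 - c * y ^ 2 + (d - a) * x - b = 0 := by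
    have h4 : 4 * c * (c * x ^ 2 - c * y ^ 2 + (d - a) * x - b) = 0 := by
      linear_combination (2 * c * x + (a - d) + 2 * (d - a)) * hx' - hy' + 4 * hdet
    rcases mul_eq_zero.1 h4 with h | h
    · exact absurd h (by positivity)
    · exact h
  refine ⟨⟨(x : ℂ) + (y : ℂ) * Complex.I, by simpa using hy0⟩, ?_⟩
  apply UpperHalfPlane.ext
  rw [coe_specialLinearGroup_apply]
  set τ : ℍ := ⟨(x : ℂ) + (y : ℂ) * Complex.I, by simpa using hy0⟩ with hτ
  have hden := denom_ne_zero (Matrix.SpecialLinearGroup.mapGL ℝ g) τ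
  have hden' : (c : ℂ) * (τ : ℂ) + (d : ℂ) ≠ 0 := by
    simpa [denom, hc, hd] using hden
  have hτc : (τ : ℂ) = (x : ℂ) + (y : ℂ) * Complex.I := rfl
  show ((a : ℂ) * (τ : ℂ) + (b : ℂ)) / ((c : ℂ) * (τ : ℂ) + (d : ℂ)) = (τ : ℂ)
  rw [div_eq_iff hden', hτc]
  have hII : Complex.I * Complex.I = -1 := Complex.I_mul_I
  have hreC : (c : ℂ) * x ^ 2 - c * y ^ 2 + (d - a) * x - b = 0 := by exact_mod_cast hre
  have hxC : 2 * (c : ℂ) * x = a - d := by exact_mod_cast hx'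
  linear_combination (-1 : ℂ) * hreC - (y : ℂ) * Complex.I * hxC - (c : ℂ) * y ^ 2 * hII

end Fermat.Agent.S43.Ops.Uq
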