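/-
Row 37 (S43), block OPS-U_q (architect helper33).
THE KUMMER PROPERTY FOR ALL EXPONENTS `n` (no hypothesis `n.Coprime 6`), for `-1 ∈ H`.
* `IsMult.kills_elliptic` : the multiplier system of a Kummer element kills EVERY element of `H` with `|trace| < 2`
  (general rotation lemma `Uq/Rot.lean` + `M.IsMult.kills_of_rotation`);
* `heckeHom_mem_homPE_of_ell` : Hecke operators preserve `{ψ ∈ homPE H A, ψ kills the elements with |trace| < 2}`;
* `FamData.isKum_prodOp_all`, `uOp hL hfam hH : Ops.U.UOp F₀ q`  (instance of helper47's contract).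
-/
import Fermat.Agent.S43.Ops.Uq.Rot
import Fermat.Agent.S43.Ops.Uq.Bridge

set_option autoImplicit false

noncomputable section

namespace Fermat.Agent.S43.Ops.Uq

open ModularCurve AlgebraicCurve Matrix.SpecialLinearGroup ModularGroup
open Fermat.Agent.S24 Fermat.Agent.GAL.Mult Fermat.Agent.S48.BB Fermat.Agent.S48.BB.U
open Fermat.Agent.S48.BB.T Fermat.Agent.Lib.HeckeHom Fermat.Agent.S48.BB.M
open scoped MatrixGroups

section Ell

variable {N : ℕ} [NeZero N] {F : Type*} [Field F] [Algebra Kbar F]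
variable {Ψ : F →ₐ[Kbar] LL N} {H : Subgroup SL(2, ℤ)} {n : ℕ} [NeZero n]

/-- the multiplier system of a Kummer element kills every elliptic element of `H` -/
theorem IsMult.kills_elliptic (hinv : ∀ γ ∈ H, ∀ f : F, γ • Ψ f = Ψ f) {u : F}
    {ψ : Additive H →+ ZMod n} (h : IsMult Ψ H n u ψ) (hdiv : IsKum F n u) (δ : H)
    (ht : (((δ : SL(2, ℤ)) : Matrix (Fin 2) (Fin 2) ℤ).trace) ^ 2 < 4) :
    ψ (Additive.ofMul δ) = 0 := by
  obtain ⟨τ₀, hτ₀⟩ := exists_fixed_point (δ : SL(2, ℤ)) ht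
  have hτ₀' : (δ : SL(2, ℤ))⁻¹ • τ₀ = τ₀ := by rw [inv_smul_eq_iff, hτ₀]
  obtain ⟨μ, hμ⟩ := exists_rotation (δ : SL(2, ℤ))⁻¹ τ₀ hτ₀'
  have hk := h.kills_of_rotation hinv hdiv (δ : SL(2, ℤ)) τ₀ μ hμ
  have he : (1 : SL(2, ℤ))⁻¹ * (δ : SL(2, ℤ)) ^ 1 * 1 = δ := by simp
  have hmem : (1 : SL(2, ℤ))⁻¹ * (δ : SL(2, ℤ)) ^ 1 * 1 ∈ H := by rw [he]; exact δ.2
  have := hk 1 1 hmem
  rwa [show (⟨_, hmem⟩ : H) = δ from Subtype.ext he] at this

end Ell

/-- Hecke operators preserve the homomorphisms killing the parabolic and ALL the elliptic elements. -/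
theorem heckeHom_mem_homPE_of_ell {H : Subgroup SL(2, ℤ)} (hH : (-1 : SL(2, ℤ)) ∈ H)
    {ι : Type*} [Fintype ι] {α : ι → GL (Fin 2) ℝ} (h : IsHeckeFamily (inclH H) α)
    {A : Type*} [AddCommGroup A] {ψ : Additive H →+ A} (hψ : ψ ∈ M.homPE H A)
    (hell : ∀ δ : H, (((δ : SL(2, ℤ)) : Matrix (Fin 2) (Fin 2) ℤ).trace) ^ 2 < 4 →
      ψ (Additive.ofMul δ) = 0) : h.heckeHom ψ ∈ M.homPE H A := by
  rw [mem_homPE_iff] at hψ ⊢
  rw [Top.mem_homPE]
  intro σ hσ k g hmem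
  have hconj : ∀ m : ℕ, (g⁻¹ * σ ^ k * g) ^ m = g⁻¹ * σ ^ (k * m) * g := by
    intro m
    have := conj_pow (a := g⁻¹) (b := σ ^ k) (i := m)
    rw [inv_inv] at this
    rw [this, pow_mul]
  refine Fermat.Agent.S48.BB.H.ParGen.heckeHom_apply_eq_zero h ψ _ fun i m δ _ hδ => ?_
  rw [inclH_apply, inclH_apply] at hδ
  have h1 := Fermat.Agent.S48.BB.H.trace_eq_of_conj hδ
  rw [Subgroup.coe_pow] at h1
  simp only at h1
  rw [hconj, Fermat.Agent.S48.BB.H.ParGen.trace_conj] at h1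
  have hcases : ((δ : SL(2, ℤ)) : Matrix (Fin 2) (Fin 2) ℤ).trace = 2 ∨
      ((δ : SL(2, ℤ)) : Matrix (Fin 2) (Fin 2) ℤ).trace = -2 ∨
      (((δ : SL(2, ℤ)) : Matrix (Fin 2) (Fin 2) ℤ).trace) ^ 2 < 4 := by
    rw [h1]
    rcases hσ with rfl | rfl | hσ
    · rcases Fermat.Agent.S48.BB.H.ParGen.trace_S_pow (k * m) with e | e | e
      · exact Or.inl e
      · right; right; rw [e]; norm_num
      · exact Or.inr (Or.inl e)
    · rcases Fermat.Agent.S48.BB.H.ParGen.trace_ST_pow (k * m) with e | e | e | e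
      · exact Or.inl e
      · right; right; rw [e]; norm_num
      · right; right; rw [e]; norm_num
      · exact Or.inr (Or.inl e)
    · rw [Set.mem_singleton_iff] at hσ
      subst hσ
      left
      have := Fermat.Agent.S48.BB.H.trace_conj_T_pow 1 (k * m)
      simpa using this
  rcases hcases with e | e | e
  · exact Fermat.Agent.S48.BB.H.apply_eq_zero_of_trace hψ δ e
  · exact Fermat.Agent.S48.BB.H.ParGen.apply_eq_zero_of_trace_neg hψ hH δ e
  · exact hell δ e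

namespace FamData

variable {F₀ : IntermediateField ℚ (LaurentSeries ℚ)} {H : Subgroup SL(2, ℤ)}
  {N N' : ℕ} [NeZero N] [NeZero N'] {ι : Type} [Fintype ι] (X : FamData F₀ H N N' ι)

theorem isKum_prodOp_pos (hH : (-1 : SL(2, ℤ)) ∈ H) {n : ℕ} [NeZero n] (u : FB F₀)
    (hu : IsKum (FB F₀) n u) : IsKum (FB F₀) n (X.prodOp u) := by
  rcases eq_or_ne u 0 with rfl | hu0
  · rcases X.prodOp_zero with h | h
    · rw [h]; exact hu
    · rw [h]; exact isKum_one (FB F₀) n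
  have hinv : ∀ γ ∈ H, ∀ f : FB F₀, γ • Psi X.hL f = Psi X.hL f :=
    fun γ hγ f => smul_Psi_of_mem X.hL γ hγ f
  obtain ⟨ψ, hψ⟩ := exists_isMult hinv u hu0 hu
  have hPE : ψ ∈ homPE H (ZMod n) := ⟨hψ.kills_S hinv hu, hψ.kills_ST hinv hu, hψ.kills_T hinv hu⟩
  exact isKum_of_isMult X.hL (X.isMult_prodOp hψ)
    (heckeHom_mem_homPE_of_ell hH X.hα hPE (fun δ ht => IsMult.kills_elliptic hinv hψ hu δ ht))

/-- **The product operator preserves the Kummer elements, for every exponent.** -/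
theorem isKum_prodOp_all (hH : (-1 : SL(2, ℤ)) ∈ H) (n : ℕ) (u : FB F₀)
    (hu : IsKum (FB F₀) n u) : IsKum (FB F₀) n (X.prodOp u) := by
  rcases Nat.eq_zero_or_pos n with rfl | hn
  · intro v
    have h0 : ∀ w : Place Kbar (FB F₀), w.ord u = 0 := fun w => by simpa using hu w
    set m : ℕ := (v.ord (X.prodOp u)).natAbs + 1 with hm
    have : NeZero m := ⟨by omega⟩
    have h1 := X.isKum_prodOp_pos hH (n := m) u (fun w => by rw [h0 w]; exact dvd_zero _) v
    have h2 : v.ord (X.prodOp u) = 0 := by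
      apply Int.eq_zero_of_abs_lt_dvd h1
      rw [hm]
      push_cast
      rw [Int.abs_eq_natAbs]
      omega
    rw [h2]
    exact dvd_zero _
  · have : NeZero n := ⟨hn.ne'⟩
    exact X.isKum_prodOp_pos hH u hu

end FamData

/-- **The operator `U_q`, as an instance of the contract `Ops.U.UOp`.** -/
def uOp {F₀ : IntermediateField ℚ (LaurentSeries ℚ)} {H : Subgroup SL(2, ℤ)} {N : ℕ} [NeZero N]
    {q : ℕ} [NeZero q] (hL : IsLvl F₀ H N) (hfam : IsHeckeFamily (M.inclH H) (uqFam q))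
    (hH : (-1 : SL(2, ℤ)) ∈ H) : Ops.U.UOp F₀ q :=
  uOp_of_isKum (uqOp hL hfam) (fun n u hu => (uqData hL hfam).isKum_prodOp_all hH n u hu)

end Fermat.Agent.S43.Ops.Uq

end
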