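/-
Row 37 (S43), block OPS-U (helper47 + helper33).  THE INSTANCES of the contract `Ops.U.UOp`:
* `uOp1 q M : UOp (F1Q q M) q`                          (level `±Γ₁(q) ∩ Γ₀(q M)`),
* `uOp0 q M : UOp (modularFunctionFieldFull (q * M)) q` (level `Γ₀(q M)`),
with their product formulas `isRep_uOp1`, `isRep_uOp0` and Hecke families `hfam1`, `hfam0`.
-/
import Fermat.Agent.S43.Ops.Uq.KumAll
import Fermat.Agent.S48.BB.W.Lvl
import Fermat.Agent.S48.BB.V.LvlFull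

set_option autoImplicit false

noncomputable section

namespace Fermat.Agent.S43.Ops.Uq

open ModularCurve CongruenceSubgroup
open Fermat.Agent.S24 Fermat.Agent.S48.BB Fermat.Agent.S48.BB.H Fermat.Agent.Lib.HeckeHom
open scoped MatrixGroups

variable (q M : ℕ) [NeZero q] [NeZero M]

theorem neg_one_mem_Gamma0' (N : ℕ) : (-1 : SL(2, ℤ)) ∈ Gamma0 N := by
  rw [mem_Gamma0_iff_dvd]
  simp

omit [NeZero q] [NeZero M] in
theorem neg_one_mem_H1' : (-1 : SL(2, ℤ)) ∈ H1 q M :=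
  ⟨Subgroup.mem_sup_right (Subgroup.mem_zpowers _), neg_one_mem_Gamma0' _⟩

omit [NeZero M] in
/-- the Hecke family of `U_q` for `±Γ₁(q) ∩ Γ₀(q M)` -/
theorem hfam1 : IsHeckeFamily (Fermat.Agent.S48.BB.M.inclH (H1 q M)) (uqFam q) :=
  isHeckeFamily_uqFam (isDGroup_H1 q M) (Dvd.intro _ rfl)

omit [NeZero M] in
/-- the Hecke family of `U_q` for `Γ₀(q M)` -/
theorem hfam0 : IsHeckeFamily (Fermat.Agent.S48.BB.M.inclH (Gamma0 (q * M))) (uqFam q) :=
  isHeckeFamily_uqFam (isDGroup_Gamma0 (q * M)) (Dvd.intro _ rfl)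

/-- **`U_q` at the level `±Γ₁(q) ∩ Γ₀(q M)`.** -/
def uOp1 : Ops.U.UOp (F1Q q M) q := uOp (W.isLvl_F1Q q M) (hfam1 q M) (neg_one_mem_H1' q M)

/-- **`U_q` at the level `Γ₀(q M)`.** -/
def uOp0 : Ops.U.UOp (modularFunctionFieldFull (q * M)) q :=
  uOp (V.isLvl_full (q * M)) (hfam0 q M) (neg_one_mem_Gamma0' _)

theorem isRep_uOp1 : Rel.IsRep (W.isLvl_F1Q q M) (uOp1 q M).U (uqA q) :=
  UOp_isRep _ _ (hfam1 q M)

theorem isRep_uOp0 : Rel.IsRep (V.isLvl_full (q * M)) (uOp0 q M).U (uqA q) :=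
  UOp_isRep _ _ (hfam0 q M)

end Fermat.Agent.S43.Ops.Uq

end
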